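import Fermat.Agent.LT.Interface
import Fermat.Agent.DS.Conjugates
import Fermat.Agent.Quick.BridgeLift
import Fermat.Agent.IntegralStructure.Main
import Fermat.Agent.CommAlg.FrobeniusExists
import Fermat.Prelude.Def_FLTPrelim_ModularRep

/-!
# From weight one to weight two modulo three

The product of a weight one form with nebentypus `χ₋₃` and the Eisenstein series `1 + 6 ∑ σ_χ(n) qⁿ`
is a form of weight two on `Γ₀(N)` with coefficients congruent to those of the first modulo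
`1 + √-2`; its combination with its complex conjugate has integral coefficients.
-/

set_option autoImplicit false

noncomputable section

namespace FLTAgent.LT.Exit

open UpperHalfPlane ModularForm MatrixGroups CongruenceSubgroup EisensteinWeightOne
open FLTAgent.IntegralStructure

/-- The character `χ₋₃`. -/
def chiThree : DirichletCharacter ℂ 3 where
  toFun x := (chiNegThree x.val : ℂ)
  map_one' := by
    rw [show chiNegThree (ZMod.val (1 : ZMod 3)) = 1 from rfl, Int.cast_one]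
  map_mul' x y := by
    rw [← Int.cast_mul, show chiNegThree (x * y).val = chiNegThree x.val * chiNegThree y.val from
      (by decide : ∀ x y : ZMod 3, chiNegThree (x * y).val = chiNegThree x.val * chiNegThree y.val)
        x y]
  map_nonunit' x hx := by
    rw [show x = 0 from by
      by_contra h
      exact hx (isUnit_iff_ne_zero.mpr h)]
    exact Int.cast_zero

theorem chiThree_natCast (n : ℕ) : chiThree (n : ZMod 3) = (chiNegThree n : ℂ) := by
  show (chiNegThree (n : ZMod 3).val : ℂ) = _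
  rw [ZMod.val_natCast]
  simp only [chiNegThree, Nat.mod_mod]

theorem chiThree_mul_self {x : ZMod 3} (hx : IsUnit x) : chiThree x * chiThree x = 1 := by
  show (chiNegThree x.val : ℂ) * (chiNegThree x.val : ℂ) = 1
  rw [← Int.cast_mul, (by decide : ∀ y : ZMod 3, y ≠ 0 → chiNegThree y.val * chiNegThree y.val = 1)
    x hx.ne_zero, Int.cast_one]

theorem chiThree_odd : (chiThree : ZMod 3 → ℂ).Odd := fun x => by
  show (chiNegThree (-x).val : ℂ) = -(chiNegThree x.val : ℂ)
  rw [(by decide : ∀ y : ZMod 3, chiNegThree (-y).val = -chiNegThree y.val) x, Int.cast_neg]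

/-- Six times the Eisenstein series of `χ₋₃` has the coefficients of `e1Chi3`. -/
theorem qCoeff_eisThree (n : ℕ) :
    6 * ModularFormClass.qCoeff (DS.eisOne (chiThree : ZMod 3 → ℂ)) n =
      ((PowerSeries.coeff n e1Chi3 : ℤ) : ℂ) := by
  rw [e1Chi3, PowerSeries.coeff_mk]
  rcases eq_or_ne n 0 with rfl | hn
  · rw [if_pos rfl, DS.qCoeff_eisOne_zero chiThree_odd]
    simp only [chiThree_natCast, Finset.sum_range_succ, Finset.sum_range_zero]
    simp [chiNegThree]
    norm_num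
  · rw [if_neg hn, DS.qCoeff_eisOne chiThree_odd hn, sigmaChi, Int.cast_mul, Int.cast_sum]
    simp only [chiThree_natCast]
    push_cast
    rfl

/-- The coefficients of `e1Chi3` are those of the constant series modulo `3`. -/
theorem e1Chi3_mod_three (n : ℕ) :
    ((PowerSeries.coeff n e1Chi3 : ℤ) : ZMod 3) = if n = 0 then 1 else 0 := by
  rw [e1Chi3, PowerSeries.coeff_mk]
  split_ifs with h
  · exact Int.cast_one
  · rw [Int.cast_mul, show ((6 : ℤ) : ZMod 3) = 0 from rfl, zero_mul]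

theorem iotaC_apply (z : ℤ√(-2)) :
    iotaC z = (z.re : ℂ) + (z.im : ℂ) * (Complex.I * (Real.sqrt 2 : ℂ)) := rfl

theorem red_apply (z : ℤ√(-2)) : FLT.ExplicitLift.red z = ((z.re - z.im : ℤ) : ZMod 3) := by
  show (z.re : ZMod 3) + (z.im : ZMod 3) * (-1) = _
  push_cast
  ring

theorem combination_iotaC (z : ℤ√(-2)) :
    (1 + Complex.I / (Real.sqrt 2 : ℂ)) / 2 * iotaC z +
      (1 - Complex.I / (Real.sqrt 2 : ℂ)) / 2 * (starRingEnd ℂ) (iotaC z) =
      ((z.re - z.im : ℤ) : ℂ) := by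
  have h2 : (Real.sqrt 2 : ℂ) ≠ 0 := Complex.ofReal_ne_zero.mpr (by positivity)
  rw [iotaC_apply, map_add, map_mul, map_mul, Complex.conj_I, Complex.conj_ofReal, map_intCast,
    map_intCast]
  field_simp
  push_cast
  linear_combination (2 * (Real.sqrt 2 : ℂ) * (z.im : ℂ)) * Complex.I_mul_I

variable {N : ℕ} [NeZero N]

/-- The product with the Eisenstein series. -/
theorem exists_weightTwo (h3 : 3 ∣ N) (f : CuspForm (Gamma1 N) 1) (b : ℕ → ℤ√(-2))
    (hb : FormalHecke.IsEigensystem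
      (fun ℓ => if ℓ ∣ N then 0 else ((chiNegThree ℓ : ℤ) : ℤ√(-2))) b)
    (hf : ∀ n : ℕ, ModularFormClass.qCoeff f n = iotaC (b n)) :
    ∃ (H : CuspForm (Gamma0 N) 2) (cH : ℕ → ℤ), (∀ n, ModularFormClass.qCoeff H n = (cH n : ℂ)) ∧
      ∀ n, (cH n : ZMod 3) = FLT.ExplicitLift.red (b n) := by
  classical
  let ε : DirichletCharacter ℂ N := DirichletCharacter.changeLevel h3 chiThree
  have hεp : ∀ p : ℕ, p.Prime → ¬ p ∣ N → ε (p : ZMod N) = (chiNegThree p : ℂ) := fun p hp hpN => by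
    have hc : IsCoprime (p : ℤ) N := Nat.isCoprime_iff_coprime.2 (hp.coprime_iff_not_dvd.2 hpN)
    rw [← chiThree_natCast]
    simpa using DirichletCharacter.changeLevel_eq_cast_of_dvd' chiThree h3 hc
  have hne : ∀ γ ∈ Gamma0 N,
      (f : ℍ → ℂ) ∣[(1 : ℤ)] γ = ε ((γ 1 1 : ℤ) : ZMod N) • (f : ℍ → ℂ) := by
    refine DS.slash_eq_of_hecke ε f fun p hp hpN n => ?_
    have := congrArg iotaC (hb.2 p hp n)
    simp only [if_neg hpN, map_add, map_mul, map_intCast, apply_ite iotaC, map_zero] at this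
    rw [hεp p hp hpN, hf, hf, hf, hf]
    exact this
  set E : ℍ → ℂ := (6 : ℂ) • (DS.eisOne (chiThree : ZMod 3 → ℂ) : ℍ → ℂ) with hE
  have hEs : ∀ γ : SL(2, ℤ), γ ∈ Gamma0 3 →
      E ∣[(1 : ℤ)] γ = chiThree ((γ 1 1 : ℤ) : ZMod 3) • E := fun γ hγ => by
    rw [hE, ModularForm.SL_smul_slash, DS.eisOne_char_slash chiThree hγ, smul_comm]
  let G : CuspForm (Gamma0 N) 2 := DS.cuspOfFun (Gamma0 N) 2 ((f : ℍ → ℂ) * E)
    (fun γ hγ => by
      have hu := DS.isUnit_lowerRight (DS.gamma0_mono h3 hγ)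
      have hε : ε ((γ 1 1 : ℤ) : ZMod N) = chiThree ((γ 1 1 : ℤ) : ZMod 3) := by
        obtain ⟨u, hu'⟩ := DS.isUnit_lowerRight hγ
        show DirichletCharacter.changeLevel h3 chiThree _ = _
        rw [← hu', DirichletCharacter.changeLevel_eq_cast_of_dvd chiThree h3 u, hu',
          ZMod.cast_intCast h3]
      rw [show (2 : ℤ) = 1 + 1 by norm_num, ModularForm.mul_slash_SL2, hne γ hγ,
        hEs γ (DS.gamma0_mono h3 hγ), smul_mul_smul_comm, hε, chiThree_mul_self hu, one_smul])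
    ((CuspFormClass.holo f).mul (MDifferentiable.const_smul _ (ModularFormClass.holo _)))
    (fun a => by
      rw [show (2 : ℤ) = 1 + 1 by norm_num, ModularForm.mul_slash_SL2]
      refine Filter.ZeroAtFilter.mul_boundedAtFilter (DS.isZeroAtImInfty_slash f a) ?_
      rw [hE, ModularForm.SL_smul_slash]
      exact Filter.BoundedAtFilter.smul _ (ModularFormClass.bdd_at_infty_slash (DS.eisOne _) a))
  -- the coefficients of the product
  let c : ℕ → ℤ√(-2) := fun n => ∑ ij ∈ Finset.HasAntidiagonal.antidiagonal n,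
    b ij.1 * ((PowerSeries.coeff ij.2 e1Chi3 : ℤ) : ℤ√(-2))
  have hG : ∀ n, ModularFormClass.qCoeff G n = iotaC (c n) := fun n => by
    have hq : qC G = DS.qG (M := N) (k := 1) f *
        ((6 : ℂ) • DS.qG (M := 3) (k := 1) (DS.eisOne (chiThree : ZMod 3 → ℂ))) := Subtype.ext rfl
    have h := congrArg (fun s => PowerSeries.coeff n (qHom s)) hq
    simp only [map_mul, map_smul, PowerSeries.coeff_mul, qHom_apply] at h
    refine h.trans ?_
    rw [map_sum]
    refine Finset.sum_congr rfl fun ij _ => ?_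
    rw [map_mul, map_intCast, ← hf, ← qCoeff_eisThree]
    rfl
  have hc : ∀ n, FLT.ExplicitLift.red (c n) = FLT.ExplicitLift.red (b n) := fun n => by
    rw [map_sum, Finset.sum_eq_single (n, 0)]
    · rw [map_mul, map_intCast, e1Chi3_mod_three, if_pos rfl, mul_one]
    · rintro ⟨i, j⟩ hij hne'
      rw [map_mul, map_intCast, e1Chi3_mod_three, if_neg, mul_zero]
      rintro rfl
      exact hne' (by simp_all)
    · exact fun h => absurd (Finset.HasAntidiagonal.mem_antidiagonal.mpr (add_zero n)) h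
  obtain ⟨G', hG'⟩ := exists_conjForm_qCoeff (starRingAut (R := ℂ)) G
  refine ⟨((1 + Complex.I / (Real.sqrt 2 : ℂ)) / 2) • G +
    ((1 - Complex.I / (Real.sqrt 2 : ℂ)) / 2) • G', fun n => (c n).re - (c n).im, fun n => ?_,
    fun n => ?_⟩
  · rw [Quick.qCoeff_add', Quick.qCoeff_smul', Quick.qCoeff_smul', hG', hG]
    exact combination_iotaC (c n)
  · rw [← red_apply, hc]

/-- **A weight one eigensystem with nebentypus `χ₋₃` gives a weight two eigenform congruent to it
modulo three.** -/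
theorem exists_eigenform_congruent_weightOne (h3 : 3 ∣ N) (f : CuspForm (Gamma1 N) 1)
    (b : ℕ → ℤ√(-2))
    (hb : FormalHecke.IsEigensystem
      (fun ℓ => if ℓ ∣ N then 0 else ((chiNegThree ℓ : ℤ) : ℤ√(-2))) b)
    (hf : ∀ n : ℕ, ModularFormClass.qCoeff f n = iotaC (b n)) :
    ∃ (g : CuspForm (Gamma0 N) 2) (_ : g.IsNormalizedEigenform)
      (𝔪 : Ideal (integralClosure ℤ ℂ)), 𝔪.IsMaximal ∧ ((3 : ℕ) : integralClosure ℤ ℂ) ∈ 𝔪 ∧
      ∀ (ℓ : ℕ) (_ : ℓ.Prime) (_ : ¬ ℓ ∣ N) (a : ℤ), (a : ZMod 3) = FLT.ExplicitLift.red (b ℓ) →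
        ∃ c : integralClosure ℤ ℂ, (c : ℂ) = ModularFormClass.qCoeff g ℓ ∧
          c - (a : integralClosure ℤ ℂ) ∈ 𝔪 := by
  have : Fact (Nat.Prime 3) := ⟨Nat.prime_three⟩
  obtain ⟨H, cH, hH, hcong⟩ := exists_weightTwo h3 f b hb hf
  obtain ⟨θ, hθ⟩ := Quick.exists_residualChar (p := 3) (S := (∅ : Set ℕ)) H cH hH
    (by rw [hcong, hb.1, map_one]) (fun ℓ => FLT.ExplicitLift.red (b ℓ))
    (fun ℓ hℓ hℓN _ n => by
      have := congrArg FLT.ExplicitLift.red (hb.2 ℓ hℓ n)
      simp only [if_neg hℓN, map_add, map_mul, map_intCast, apply_ite FLT.ExplicitLift.red,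
        map_zero, Quick.chiNegThree_mod_three] at this
      rw [mul_comm n ℓ, hcong, hcong, hcong, ← this]
      split_ifs <;> simp)
    (fun q hq hqN _ n => by
      have := congrArg FLT.ExplicitLift.red (hb.2 q hq n)
      simp only [if_pos hqN, zero_mul, add_zero, map_mul] at this
      rw [mul_comm n q, hcong, hcong, ← this])
  have := RingHom.ker_isMaximal_of_surjective θ (ZMod.ringHom_surjective θ)
  obtain ⟨g, hg, χ, P, hP, hcomap, hT, -⟩ :=
    Quick.exists_eigenform_of_prime (hasIntegralStructure N 2) (RingHom.ker θ)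
  refine ⟨g, hg, P, hP, ?_, fun ℓ hℓ hℓN a ha => ⟨_, hT ℓ hℓ hℓN, ?_⟩⟩
  · rw [← map_natCast χ, ← Ideal.mem_comap, hcomap, RingHom.mem_ker, map_natCast]
    exact ZMod.natCast_self 3
  · rw [← map_intCast χ, ← map_sub, ← Ideal.mem_comap, hcomap, RingHom.mem_ker, map_sub,
      map_intCast, hθ, ha, sub_self]

omit [NeZero N] in
theorem red_trace (d : Octa) (g : GL (Fin 2) (ZMod 3)) :
    FLT.ExplicitLift.red
      ((d.lift g : GL (Fin 2) (ℤ√(-2))) : Matrix (Fin 2) (Fin 2) (ℤ√(-2))).trace =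
      (g : Matrix (Fin 2) (Fin 2) (ZMod 3)).trace := by
  conv_rhs => rw [← d.lift_red g]
  simp [Matrix.trace_fin_two]

omit [NeZero N] in
/-- **The exit of the route:** residual modularity modulo three at the level of the weight one
form. -/
theorem isResiduallyModular_of_ltConclusion (d : Octa) (h : LTConclusion d) (W : WeierstrassCurve ℤ)
    (htr : ∀ ℓ : ℕ, ℓ.Prime → W.IsGoodPrimeFor ℓ → ℓ ≠ 3 →
      ∀ A : ValuationSubring Qb, A.LiesOverPrime ℓ → ∀ σ : Gam, A.IsFrobeniusAt σ ℓ →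
        ((d.rbar σ : GL (Fin 2) (ZMod 3)) : Matrix (Fin 2) (Fin 2) (ZMod 3)).trace =
          (W.apOfModel ℓ : ZMod 3)) :
    ∃ N : ℕ, 0 < N ∧ d.Good N ∧ W.IsResiduallyModularOfLevel 3 N := by
  obtain ⟨N, hN0, b, f, hgood, hb, hf, hbp⟩ := h
  obtain ⟨g, hg, P, hP, h3P, hcong⟩ := exists_eigenform_congruent_weightOne hgood.2.1 f b hb hf
  refine ⟨N, hgood.1, hgood, g, P, hg, hP, h3P, fun ℓ hℓ hgoodℓ hℓN hℓ3 => ?_⟩
  obtain ⟨A, hA, σ, hσ⟩ := CommAlg.exists_liesOverPrime_isFrobeniusAt hℓ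
  refine hcong ℓ hℓ hℓN _ ?_
  rw [hbp ℓ hℓ (fun hd => (hℓ.dvd_mul.mp hd).elim
      (fun h => hℓ3 ((Nat.prime_dvd_prime_iff_eq hℓ Nat.prime_three).mp h)) hℓN) A hA σ hσ,
    red_trace, htr ℓ hℓ hgoodℓ hℓ3 A hA σ hσ]

end FLTAgent.LT.Exit
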